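import Fermat.Agent.S15.GR.Coord.Pole

/-! # S15 / GR / Coord / Main  (plan: header of `Coord/Pole.lean`) -/

set_option autoImplicit false
set_option linter.unusedSectionVars false

namespace Fermat.Agent.S15.GR

open AlgebraicCurve Fermat.Agent.S26 Fermat.Agent.S37.Red Fermat.Agent.S19.Geo0 Polynomial
  IntermediateField

variable {K k : Type*} [Field K] [Field k] {A : ValuationSubring K} {π : A →+* k}
variable {F Ft : Type*} [Field F] [Field Ft] [Algebra K F] [Algebra k Ft]
variable [IsAlgClosed K] [FF1 K F] [IsAlgClosed k] [FF1 k Ft]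
variable {V : VFF A π F Ft} {x y : F} {xt yt : Ft}

/-- **(T1)** every pre-chart is a chart.  Proof (b) of the header: `exists_mem_LSpace_of_intK`, `exists_ImL_eq_of_degree` (choose `m` with `c ≤ m * deg (y)_∞`; `degree_nsmul_poleDivisor`/`map_nsmul`, `deg (y)_∞ = [F : K(y)] > 0`),
`map_nsmul` + `rD_poleDivisor_of_preChart`, `mem_ImL`, `intK_of_mem_LSpace`, `IsPreChart.sat`. -/
theorem isChart_of_good (hG : Good V x xt) (pc : IsPreChart V y yt) : IsChart V y yt := by
  refine ⟨pc.red_y, pc.trans, pc.deg, fun h hh => ?_⟩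
  have hyT : Transcendental K y := transcendental_of_red V pc.red_y pc.trans
  obtain ⟨m₁, hm₁⟩ := exists_mem_LSpace_of_intK hh
  obtain ⟨c, hc⟩ := exists_ImL_eq_of_degree hG
  have hfd : FiniteDimensional K⟮y⟯ F := finiteDimensional_adjoin_of_transcendental hyT
  have hpos : 0 < Module.finrank K⟮y⟯ F := Module.finrank_pos
  have hdeg : c ≤ Divisor.degree ((max m₁ c.toNat) • poleDivisor (Ω := K) y) := by
    rw [map_nsmul, degree_poleDivisor hyT, nsmul_eq_mul]
    have h1 : c ≤ ((max m₁ c.toNat : ℕ) : ℤ) :=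
      (Int.self_le_toNat c).trans (by exact_mod_cast le_max_right _ _)
    have h2 : (1 : ℤ) ≤ (Module.finrank K⟮y⟯ F : ℤ) := by exact_mod_cast hpos
    have h3 : (0 : ℤ) ≤ ((max m₁ c.toNat : ℕ) : ℤ) := Int.natCast_nonneg _
    nlinarith
  have h1 := hc _ hdeg
  rw [map_nsmul, rD_poleDivisor_of_preChart hG pc] at h1
  have h2 : h ∈ ImL V ((max m₁ c.toNat) • poleDivisor (Ω := K) y) := by
    rw [h1]
    exact hm₁ _ (le_max_left _ _)
  obtain ⟨f, hf, hfr⟩ := mem_ImL.1 h2
  exact ⟨f, pc.sat (intK_of_mem_LSpace hf) hfr.choose, hfr⟩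

/-- `Good` is independent of the coordinate. -/
theorem good_of_good (hG : Good V x xt) (pc : IsPreChart V y yt) : Good V y yt :=
  ⟨isChart_of_good hG pc, isChart_of_good hG pc.inv⟩

end Fermat.Agent.S15.GR
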