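import Fermat.Agent.S19.Geo0.Lift

/-!
# S15 / GR / Coord : `Geo0.Good` does not depend on the coordinate   (T1)

Setting of `S19/Geo0`.  If `x, x⁻¹` are charts (`Good V x xt`) then EVERY pre-chart `y` (i.e. `red y = yt` transcendental and
`[F : K(y)] ≤ [Ft : k(yt)]`) is a chart.

Proof.  (a) `rD (y)_∞ = (yt)_∞`: pointwise `(yt)_∞ ≤ rD (y)_∞` by `ord_red`, and both have the same degree
(`degree_poleDivisor`, `IsPreChart.finrank_eq`, `degree_rD`).
(b) `h` integral over `k[yt]` ⇒ `h ∈ L(m (yt)_∞) = L(rD (m (y)_∞)) = ImL V (m (y)_∞)` for `m ≫ 0` (`exists_ImL_eq_of_degree`):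
`h = red f`, `f ∈ L(m (y)_∞) ∩ O`, so `f` is integral over `K[y]` and then over `A[y]` (`IsPreChart.sat`).
-/

set_option autoImplicit false
set_option linter.unusedSectionVars false

namespace Fermat.Agent.S15.GR

open AlgebraicCurve Fermat.Agent.S26 Fermat.Agent.S37.Red Fermat.Agent.S19.Geo0 Polynomial
  IntermediateField

section FF

variable {Ω 𝕃 : Type*} [Field Ω] [Field 𝕃] [Algebra Ω 𝕃] [IsAlgClosed Ω] [FF1 Ω 𝕃]

/-- `D ≤ E` and `deg E ≤ deg D` ⇒ `D = E`.
(`E - D` is effective; `DivisorOf.degree_eq_sum`, `deg_eq_one_of_isAlgClosed`: a sum of non-negative integers which is `≤ 0` has all terms `0`.) -/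
theorem eq_of_le_of_degree_le {D E : Divisor Ω 𝕃} (h : ∀ v, D v ≤ E v)
    (hd : Divisor.degree E ≤ Divisor.degree D) : D = E := by
  have h1 : Divisor.degree (E - D) ≤ 0 := by
    rw [map_sub]; omega
  rw [DivisorOf.degree_eq_sum, Finsupp.sum] at h1
  have h2 : ∀ v ∈ (E - D).support, 0 ≤ (E - D) v * (v.deg : ℤ) := by
    intro v _
    rw [deg_eq_one_of_isAlgClosed, Finsupp.sub_apply]
    have := h v
    simp only [Nat.cast_one, mul_one]
    omega
  have h3 := (Finset.sum_eq_zero_iff_of_nonneg h2).1 (le_antisymm h1 (Finset.sum_nonneg h2))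
  ext v
  by_contra hne
  have hv : v ∈ (E - D).support := by
    rw [Finsupp.mem_support_iff, Finsupp.sub_apply]
    intro h0
    exact hne (by omega)
  have h4 := h3 v hv
  rw [deg_eq_one_of_isAlgClosed, Finsupp.sub_apply] at h4
  simp only [Nat.cast_one, mul_one] at h4
  exact hne (by omega)

end FF

variable {K k : Type*} [Field K] [Field k] {A : ValuationSubring K} {π : A →+* k}
variable {F Ft : Type*} [Field F] [Field Ft] [Algebra K F] [Algebra k Ft]
variable [IsAlgClosed K] [FF1 K F] [IsAlgClosed k] [FF1 k Ft]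
variable {V : VFF A π F Ft} {x y : F} {xt yt : Ft}

/-- `(yt)_∞ ≤ rD (y)_∞`.
By `rD_apply` the right side is `∑ᶠ_{rP v = Q} max 0 (- ord_v y) ≥ 0`, and by `ord_red`, `- ord_Q yt = ∑ᶠ_{rP v = Q} (- ord_v y) ≤` the same sum
(termwise; the sums are finite: `finite_ord_ne_zero`; see the proof of `Geo0.rD_poleDivisor` for the manipulation of these `finsum`s). -/
theorem poleDivisor_le_rD (hG : Good V x xt) (hy : V.Red y yt) (hyt : yt ≠ 0) (Q : Place k Ft) :
    poleDivisor (Ω := k) yt Q ≤ rD hG (poleDivisor (Ω := K) y) Q := by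
  classical
  have hy0 : y ≠ 0 := by
    rintro rfl
    exact hyt (hy.unique V.red_zero)
  rw [poleDivisor_apply]
  refine max_le (rD_nonneg hG (fun v => by rw [poleDivisor_apply]; exact le_max_left _ _) Q) ?_
  rw [rD_apply, ord_red hG hy hyt Q, ← finsum_neg_distrib]
  have hfin : {v : Place K F | v.ord y ≠ 0}.Finite := finite_ord_ne_zero hy0
  refine finsum_le_finsum' ?_ ?_ ?_
  · refine hfin.subset fun v hv => ?_
    rw [Function.mem_support] at hv
    intro h0
    apply hv
    rw [finsum_eq_if]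
    split_ifs <;> simp [h0]
  · refine hfin.subset fun v hv => ?_
    rw [Function.mem_support] at hv
    intro h0
    apply hv
    rw [finsum_eq_if]
    split_ifs
    · rw [poleDivisor_apply, h0]; simp
    · rfl
  · intro v
    show -(∑ᶠ (_ : rP hG v = Q), v.ord y) ≤ ∑ᶠ (_ : rP hG v = Q), poleDivisor (Ω := K) y v
    rw [finsum_eq_if, finsum_eq_if]
    split_ifs with hv
    · rw [poleDivisor_apply]; exact le_max_right _ _
    · simp

/-- (a)  `eq_of_le_of_degree_le`, `poleDivisor_le_rD`, `degree_rD`, `degree_poleDivisor` (twice; `transcendental_of_red`), `IsPreChart.finrank_eq`. -/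
theorem rD_poleDivisor_of_preChart (hG : Good V x xt) (pc : IsPreChart V y yt) :
    rD hG (poleDivisor (Ω := K) y) = poleDivisor (Ω := k) yt := by
  have hyt0 : yt ≠ 0 := by
    rintro rfl
    exact pc.trans isAlgebraic_zero
  refine (eq_of_le_of_degree_le (poleDivisor_le_rD hG pc.red_y hyt0) ?_).symm
  rw [degree_rD, degree_poleDivisor pc.trans,
    degree_poleDivisor (transcendental_of_red V pc.red_y pc.trans), pc.finrank_eq]

end Fermat.Agent.S15.GR
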